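import Fermat.Agent.UnipotentInertia.Assembly
import Fermat.Agent.TwoComp.TwistRoot

/-!
# From twisted Kummer classes to unipotence on the torsion of `J₀(M)`

If the twice twisted Kummer class of every function is a power, then `(σ - 1) ^ 2` kills the
corresponding torsion of the Jacobian.
-/

set_option autoImplicit false

noncomputable section

namespace Fermat.Agent.UnipotentInertia

open AlgebraicCurve ModularCurve

section General

variable {K F : Type*} [Field K] [Field F] [Algebra K F] (g : SemilinearAut K F)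

/-- The order of a translated function at a place. -/
theorem ord_smul_eq (f : F) (v : Place K F) : v.ord (g • f) = (g⁻¹ • v).ord f := by
  have h := SemilinearAut.ord_smul g (g⁻¹ • v) f
  rwa [smul_inv_smul] at h

/-- If the twice twisted class of every `f` is a power, `(g - 1) ^ 2` kills the torsion. -/
theorem double_sub_eq_zero_of_roots {n : ℕ} (hn : n ≠ 0)
    (hroot : ∀ f : F, f ≠ 0 → (∀ v : Place K F, (n : ℤ) ∣ v.ord f) →
      ∃ s : F, s ^ n * ((g • (g • f * f ^ (n - 1))) * (g • f * f ^ (n - 1)) ^ (n - 1)) = 1)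
    {x : Pic0 K F} (hx : n • x = 0) : g • (g • x - x) - (g • x - x) = 0 := by
  obtain ⟨D, rfl⟩ := Pic0.mk_surjective x
  have hP := hx
  rw [Pic0.mk, ← QuotientAddGroup.mk_nsmul, QuotientAddGroup.eq_zero_iff,
    AddSubgroup.mem_addSubgroupOf, AddSubgroupClass.coe_nsmul] at hP
  obtain ⟨f, hf, hfD⟩ := hP
  have hfD' : ∀ v : Place K F, v.ord f = (n : ℤ) * (D : Divisor K F) v := fun v => by
    rw [← hfD v, Finsupp.smul_apply, nsmul_eq_mul]
  obtain ⟨s, hs⟩ := hroot f hf fun v => hfD' v ▸ dvd_mul_right _ _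
  set e := n - 1 with he
  set E : Divisor.degZero (K := K) (F := F) :=
    SemilinearAut.degZeroSMulHom g (SemilinearAut.degZeroSMulHom g D) +
      e • SemilinearAut.degZeroSMulHom g D + e • (SemilinearAut.degZeroSMulHom g D + e • D) with hE
  have hgf : g • f ≠ 0 := (smul_ne_zero_iff_ne g).mpr hf
  have hu : g • f * f ^ e ≠ 0 := mul_ne_zero hgf (pow_ne_zero _ hf)
  have hgu : g • (g • f * f ^ e) ≠ 0 := (smul_ne_zero_iff_ne g).mpr hu
  have hs0 : s ≠ 0 := fun h0 => by simp [h0, hn] at hs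
  have hprin : (E : Divisor K F).IsPrincipal := by
    refine ⟨s⁻¹, inv_ne_zero hs0, fun v => ?_⟩
    refine mul_left_cancel₀ (show (n : ℤ) ≠ 0 by exact_mod_cast hn) ?_
    have h1 := congrArg v.ord hs
    have hu' : ∀ w : Place K F, w.ord (g • f * f ^ e) =
        (n : ℤ) * (D : Divisor K F) (g⁻¹ • w) + e * ((n : ℤ) * (D : Divisor K F) w) := fun w => by
      rw [w.ord_mul hgf (pow_ne_zero _ hf), ← zpow_natCast f e, w.ord_zpow, ord_smul_eq, hfD',
        hfD']
    rw [v.ord_mul (pow_ne_zero _ hs0) (mul_ne_zero hgu (pow_ne_zero _ hu)),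
      v.ord_mul hgu (pow_ne_zero _ hu), ← zpow_natCast s n, v.ord_zpow,
      ← zpow_natCast (g • f * f ^ e) e, v.ord_zpow, ord_smul_eq g (g • f * f ^ e), hu', hu',
      Place.ord_one] at h1
    rw [Place.ord_inv, hE]
    simp only [AddSubgroup.coe_add, AddSubgroupClass.coe_nsmul, Finsupp.add_apply,
      Finsupp.smul_apply, nsmul_eq_mul, SemilinearAut.coe_degZeroSMulHom,
      SemilinearAut.divisor_smul_apply]
    linear_combination h1
  have h0 : Pic0.mk E = 0 := by
    rw [Pic0.mk, QuotientAddGroup.eq_zero_iff, AddSubgroup.mem_addSubgroupOf]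
    exact hprin
  have hneg : ∀ y : Pic0 K F, n • y = 0 → e • y = -y := fun y hy => by
    rw [eq_neg_iff_add_eq_zero, ← succ_nsmul, he, Nat.sub_add_cancel (Nat.pos_of_ne_zero hn), hy]
  have hg : n • (g • Pic0.mk D) = 0 := by
    rw [show n • (g • Pic0.mk D) = g • (n • Pic0.mk D) from
      (map_nsmul (DistribSMul.toAddMonoidHom (Pic0 K F) g) _ _).symm, hx]
    exact smul_zero (A := Pic0 K F) g
  have hsum : Pic0.mk E = g • (g • Pic0.mk D) + e • (g • Pic0.mk D)
      + e • (g • Pic0.mk D + e • Pic0.mk D) := by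
    simp only [SemilinearAut.pic0_smul_mk]
    rfl
  rw [hsum, hneg _ hg, hneg _ hx,
    hneg (g • Pic0.mk D + -Pic0.mk D) (by simp [nsmul_add, hg, hx])] at h0
  rw [smul_sub]
  rw [← h0]
  abel

end General

theorem galois_double_sub_eq_zero {M : ℕ} {σ : AlgebraicClosure ℚ ≃ₐ[ℚ] AlgebraicClosure ℚ}
    {n : ℕ} (hn : n ≠ 0) (h : TwoComp.TwistRoot M σ n) {x : JZero M} (hx : n • x = 0) :
    σ • (σ • x - x) - (σ • x - x) = 0 :=
  double_sub_eq_zero_of_roots (K := AlgebraicClosure ℚ) (F := modularFunctionFieldBar M)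
    (arithmeticGalois (modularFunctionFieldFull M) σ) hn h hx

/-- Unipotence on the Jacobian from twisted Kummer classes. -/
theorem jacobianUnipotent_of_twistRoot {N p q : ℕ} [NeZero N] (hp : p.Prime)
    (h : ∀ P : ValuationSubring (AlgebraicClosure ℚ), P.LiesOverPrime q →
      ∀ σ ∈ P.inertiaSubgroupIn ℚ, ∀ k : ℕ, TwoComp.TwistRoot N σ (p ^ k)) :
    JacobianUnipotent N p q :=
  ⟨1, one_ne_zero, fun k P hP σ hσ x hx => by
    rw [one_smul]
    exact galois_double_sub_eq_zero (pow_ne_zero _ hp.ne_zero) (h P hP σ hσ k) hx⟩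

/-- Unipotence at split levels from twisted Kummer classes. -/
theorem unipotentAtSplitLevels_of_twistRoot
    (h : ∀ (M q n : ℕ), q.Prime → ¬ q ∣ M → (2 ∣ M ∨ 3 ∣ M) → n ≠ 0 → n.Coprime q →
      ∀ A : ValuationSubring (AlgebraicClosure ℚ), A.LiesOverPrime q →
        ∀ σ ∈ A.inertiaSubgroupIn ℚ, TwoComp.TwistRoot (M * q) σ n) :
    UnipotentAtSplitLevels :=
  fun M q p _ hq hqM hM hp hpq => jacobianUnipotent_of_twistRoot hp fun P hP σ hσ k =>
    h M q (p ^ k) hq hqM hM (pow_ne_zero _ hp.ne_zero)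
      (((Nat.coprime_primes hp hq).mpr hpq).pow_left k) P hP σ hσ

end Fermat.Agent.UnipotentInertia
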