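import Fermat.Agent.UnipotentInertia.Reduction
import Fermat.Agent.KummerDivisor.HeckeModules
import Fermat.Agent.HeckeDatum.Reduction

/-!
# Unipotent Hecke modules from the torsion of `J₀(N)`

If parabolic characters map equivariantly to `J₀(N)` with kernel killed by a fixed integer and
inertia at `q` satisfies `(σ - 1) ^ 2 = 0` on the `p`-power torsion of `J₀(N)` up to a fixed
multiple, then the Hecke algebra has unipotent modules at `q`.
-/

set_option autoImplicit false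

noncomputable section

namespace Fermat.Agent.UnipotentInertia

open ModularCurve KummerDivisor

local notation "Gal" => AlgebraicClosure ℚ ≃ₐ[ℚ] AlgebraicClosure ℚ

/-- Inertia at `q` satisfies `(σ - 1) ^ 2 = 0` on `J₀(N)[p^∞]` up to a fixed multiple. -/
def JacobianUnipotent (N : ℕ) [NeZero N] (p q : ℕ) : Prop :=
  ∃ C : ℕ, C ≠ 0 ∧ ∀ (k : ℕ) (P : ValuationSubring (AlgebraicClosure ℚ)), P.LiesOverPrime q →
    ∀ σ ∈ P.inertiaSubgroupIn ℚ, ∀ x : JZero N, p ^ k • x = 0 →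
      C • (σ • (σ • x - x) - (σ • x - x)) = 0

variable {N : ℕ} [NeZero N] {p : ℕ}

variable {S : Set ℕ} (hNS : ∀ q : ℕ, q.Prime → q ∣ N → q ∈ S)

include hNS in
/-- Unipotent Hecke modules from equivariant divisor maps and unipotent inertia on the torsion
of `J₀(N)`, up to a bounded multiple. -/
theorem hasUnipotentHeckeModules_of_divisorMaps (hp : p.Prime) (G : KummerES.Gamma0Modules N p)
    {d₀ : ℕ} (hd₀ : d₀ ≠ 0) (hΦ : HasDivisorMaps G d₀) {q : ℕ}
    (hJ : JacobianUnipotent N p q) :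
    HasUnipotentHeckeModules N S p q := by
  obtain ⟨C, hC, hJ⟩ := hJ
  intro j
  obtain ⟨k, _, r, hr, htors, hlevel, hfrob, hfaith⟩ :=
    exists_heckeModule_scaledRelChars hNS hp G (mul_ne_zero hd₀ hC) j
  refine ⟨_, _, inferInstance, r, k, {p}, htors, hlevel, fun P hP σ hσ => ?_, hfrob, hfaith⟩
  obtain ⟨Φ, hΦσ, hΦker⟩ := hΦ k
  refine LinearMap.ext fun x => Subtype.ext ?_
  obtain ⟨χ, -, hx⟩ := x.2
  rw [pow_two, Module.End.mul_apply, LinearMap.zero_apply]
  simp only [LinearMap.sub_apply, Module.End.one_apply, Submodule.coe_sub, hr]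
  rw [← hx]
  set w := G.rep k σ (G.rep k σ χ - χ) - (G.rep k σ χ - χ) with hw
  have hfix : ((d₀ * C : ℕ) : ℤ) • w = 0 := by
    rw [natCast_zsmul, mul_smul]
    refine hΦker _ ?_
    rw [map_nsmul, hw, map_sub, hΦσ, map_sub, hΦσ]
    exact hJ k P hP σ hσ (Φ χ) (by rw [← map_nsmul, nsmul_parChar_eq_zero, map_zero])
  rw [Submodule.coe_zero, ← hfix, hw]
  simp only [LinearMap.lsmul_apply, map_sub, map_zsmul, smul_sub]

variable {𝒪 : Type} [CommRing 𝒪] [IsDomain 𝒪] [IsDiscreteValuationRing 𝒪]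
  [IsAdicComplete (IsLocalRing.maximalIdeal 𝒪) 𝒪] {S : Finset ℕ}
  {θ : CuspForm.heckeAlgebra N 2 (↑S : Set ℕ) →+* IsLocalRing.ResidueField 𝒪}
  {T : Type} [CommRing T] [IsLocalRing T] [IsNoetherianRing T]
  [IsAdicComplete (IsLocalRing.maximalIdeal T) T] [Algebra 𝒪 T] [IsLocalHom (algebraMap 𝒪 T)]
  [Module.Finite 𝒪 T] [Module.Free 𝒪 T]

/-- Unipotent inertia from the Kummer modules, divisor maps and the Jacobian. -/
theorem isUnipotentOnInertiaAt_of_jacobian
    (hp : p.Prime) (hp𝒪 : (p : 𝒪) ∈ IsLocalRing.maximalIdeal 𝒪)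
    (hNS : ∀ q : ℕ, q.Prime → q ∣ N → q ∈ S)
    (H : CuspForm.HeckeGaloisRepDatum N (↑S : Set ℕ) 𝒪 θ T)
    {q : ℕ} (hq : q.Prime) (hqp : q ≠ p) (G : KummerES.Gamma0Modules N p)
    {d : ℕ} (hd : d ≠ 0) (hΦ : HasDivisorMaps G d) (hJ : JacobianUnipotent N p q) :
    H.ρ.IsUnipotentOnInertiaAt q :=
  isUnipotentOnInertiaAt_of_heckeModules HeckeDatum.frobeniusPowDense hp hp𝒪 hNS H hq hqp
    (hasUnipotentHeckeModules_of_divisorMaps (fun r hr hd => by simpa using hNS r hr hd) hp G hd hΦ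
      hJ)

end Fermat.Agent.UnipotentInertia
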