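import Fermat.Agent.UnipotentInertia.LevelRaise

/-!
# Unipotent inertia at primes exactly dividing the level

Unipotence on the Jacobian at every level follows from the levels `M q` with `2 ∣ M` or `3 ∣ M`,
by raising the level.
-/

set_option autoImplicit false

noncomputable section

namespace Fermat.Agent.UnipotentInertia

/-- Inertia at `q` is unipotent on the torsion of `J₀(M q)` when `q ∤ M` and `M` is divisible by
`2` or `3`. -/
def UnipotentAtSplitLevels : Prop :=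
  ∀ (M q p : ℕ) [NeZero (M * q)], q.Prime → ¬ q ∣ M → (2 ∣ M ∨ 3 ∣ M) → p.Prime → p ≠ q →
    JacobianUnipotent (M * q) p q

/-- Inertia at a prime exactly dividing `N` is unipotent on the torsion of `J₀(N)`. -/
theorem jacobianUnipotent_of_split (hcore : UnipotentAtSplitLevels) {N p q : ℕ} [NeZero N]
    (hp : p.Prime) (hq : q.Prime) (hpq : p ≠ q) (hqN : q ∣ N) (hq2 : ¬ q ^ 2 ∣ N) :
    JacobianUnipotent N p q := by
  obtain ⟨M, rfl⟩ : ∃ M, N = M * q := ⟨N / q, (Nat.div_mul_cancel hqN).symm⟩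
  have hqM : ¬ q ∣ M := fun hd => hq2 (by rw [pow_two]; exact Nat.mul_dvd_mul_right hd q)
  by_cases hM : 2 ∣ M ∨ 3 ∣ M
  · exact hcore M q p hq hqM hM hp hpq
  push Not at hM
  obtain ⟨h, hh, hhM, hhq, hh2⟩ : ∃ h : ℕ, (h = 2 ∨ h = 3) ∧ ¬ h ∣ M ∧ h ≠ q ∧
      (h = 3 → p ≠ 2) := by
    by_cases h2 : q = 2
    · exact ⟨3, Or.inr rfl, hM.2, by omega, fun _ => h2 ▸ hpq⟩
    · exact ⟨2, Or.inl rfl, hM.1, Ne.symm h2, by omega⟩
  have hhp : h.Prime := by rcases hh with rfl | rfl <;> decide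
  have : NeZero h := ⟨hhp.ne_zero⟩
  have : NeZero (M * q * h) := ⟨Nat.mul_ne_zero (NeZero.ne (M * q)) hhp.ne_zero⟩
  refine jacobianUnipotent_of_mul hh (fun hd => ?_) hp hh2 ?_
  · rcases hhp.dvd_mul.mp hd with h1 | h1
    · exact hhM h1
    · exact hhq ((Nat.prime_dvd_prime_iff_eq hhp hq).mp h1)
  suffices H : ∀ (L : ℕ) [NeZero L], L = M * h * q → JacobianUnipotent L p q from
    H _ (mul_right_comm M q h)
  intro L _ hL
  subst hL
  refine hcore (M * h) q p hq (fun hd => ?_) ?_ hp hpq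
  · rcases hq.dvd_mul.mp hd with h1 | h1
    · exact hqM h1
    · exact hhq ((Nat.prime_dvd_prime_iff_eq hq hhp).mp h1).symm
  · rcases hh with rfl | rfl
    · exact Or.inl (dvd_mul_left 2 M)
    · exact Or.inr (dvd_mul_left 3 M)

variable {𝒪 : Type} [CommRing 𝒪] [IsDomain 𝒪] [IsDiscreteValuationRing 𝒪]
  [IsAdicComplete (IsLocalRing.maximalIdeal 𝒪) 𝒪]
  {p N : ℕ} [NeZero N] {S : Finset ℕ}
  {θ : CuspForm.heckeAlgebra N 2 (↑S : Set ℕ) →+* IsLocalRing.ResidueField 𝒪}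
  {T : Type} [CommRing T] [IsLocalRing T] [IsNoetherianRing T]
  [IsAdicComplete (IsLocalRing.maximalIdeal T) T] [Algebra 𝒪 T] [IsLocalHom (algebraMap 𝒪 T)]
  [Module.Finite 𝒪 T] [Module.Free 𝒪 T]

/-- Unipotent inertia at a prime exactly dividing the level, from the Kummer modules, their divisor
maps and unipotence on Jacobians at split levels. -/
theorem isUnipotentOnInertiaAt_of_split (hcore : UnipotentAtSplitLevels)
    (hp : p.Prime) (hp𝒪 : (p : 𝒪) ∈ IsLocalRing.maximalIdeal 𝒪)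
    (hNS : ∀ q : ℕ, q.Prime → q ∣ N → q ∈ S)
    (G : KummerES.Gamma0Modules N p) {d : ℕ} (hd : d ≠ 0)
    (hΦ : KummerDivisor.HasDivisorMaps G d)
    (H : CuspForm.HeckeGaloisRepDatum N (↑S : Set ℕ) 𝒪 θ T)
    {q : ℕ} (hq : q.Prime) (hqp : q ≠ p) (hqN : q ∣ N) (hq2 : ¬ q ^ 2 ∣ N) :
    H.ρ.IsUnipotentOnInertiaAt q :=
  isUnipotentOnInertiaAt_of_jacobian hp hp𝒪 hNS H hq hqp G hd hΦ
    (jacobianUnipotent_of_split hcore hp hq hqp.symm hqN hq2)

end Fermat.Agent.UnipotentInertia
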