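import Fermat.Agent.UnipotentInertia.DivisorMaps
import Fermat.Agent.GoodReductionS18.PullbackInjective

/-!
# Descent of unipotence from level `h N` to level `N`

The pullback `J₀(N) → J₀(N h)` commutes with Galois and is injective on the relevant torsion for
`h = 2, 3`, so unipotence of inertia descends from level `N h` to level `N`.
-/

set_option autoImplicit false

noncomputable section

namespace Fermat.Agent.UnipotentInertia

open AlgebraicCurve ModularCurve

section General

variable {K F F' : Type*} [Field K] [Field F] [Field F'] [Algebra K F] [Algebra K F']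
  [Algebra F F'] [IsScalarTower K F F'] [Algebra.IsIntegral F F']
  {s : SemilinearAut K F} {s' : SemilinearAut K F'}
  (hs : ∀ x : F, s' • algebraMap F F' x = algebraMap F F' (s • x))

include hs

/-- Restriction of places is equivariant. -/
theorem restrict_smul (w : Place K F') : (s' • w).restrict F = s • w.restrict F := by
  refine Place.ext (SetLike.ext fun x => ?_)
  rw [Place.mem_restrict_iff, SemilinearAut.smul_toValuationSubring,
    SemilinearAut.smul_toValuationSubring, ValuationSubring.mem_pointwise_smul_iff_inv_smul_mem,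
    ValuationSubring.mem_pointwise_smul_iff_inv_smul_mem, Place.mem_restrict_iff]
  have h : s'⁻¹ • algebraMap F F' x = algebraMap F F' (s⁻¹ • x) := by
    rw [inv_smul_eq_iff, hs, smul_inv_smul]
  rw [h]

theorem ramificationIndex_smul (w : Place K F') :
    (s' • w).ramificationIndex F = w.ramificationIndex F := by
  obtain ⟨π, hπ⟩ := IsDiscreteValuationRing.exists_irreducible (w.restrict F).toValuationSubring
  have h1 : (w.restrict F).ord (π : F) = 1 := Place.ord_coe_irreducible _ hπ
  have e1 := w.ord_restrict (F := F) (π : F)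
  have e2 := (s' • w).ord_restrict (F := F) (s • (π : F))
  rw [← hs, SemilinearAut.ord_smul, restrict_smul hs, SemilinearAut.ord_smul, e1, h1, mul_one,
    mul_one] at e2
  exact_mod_cast e2.symm

variable [HasPrincipalDivisors K F']

theorem pullback_smul (D : Divisor K F) :
    Divisor.pullback F' (s • D) = s' • Divisor.pullback F' D := by
  refine Finsupp.ext fun w => ?_
  rw [Divisor.pullback_apply, SemilinearAut.divisor_smul_apply, SemilinearAut.divisor_smul_apply,
    Divisor.pullback_apply]
  have e1 := restrict_smul hs (s'⁻¹ • w)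
  have e2 := ramificationIndex_smul hs (s'⁻¹ • w)
  rw [smul_inv_smul] at e1 e2
  rw [e2, e1, inv_smul_smul]

/-- Pullback of divisor classes is equivariant. -/
theorem pullbackHom_smul [FundamentalIdentity K F F'] (x : Pic0 K F) :
    Pic0.pullbackHom F' (s • x) = s' • Pic0.pullbackHom F' x := by
  obtain ⟨D, rfl⟩ := Pic0.mk_surjective x
  rw [SemilinearAut.pic0_smul_mk, Pic0.pullbackHom_mk, Pic0.pullbackHom_mk,
    SemilinearAut.pic0_smul_mk]
  refine congrArg Pic0.mk (Subtype.ext ?_)
  rw [Pic0.coe_pullbackDegZeroHom, SemilinearAut.coe_degZeroSMulHom,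
    SemilinearAut.coe_degZeroSMulHom, Pic0.coe_pullbackDegZeroHom]
  exact pullback_smul hs _

/-- A double difference killed after pullback is zero, when pullback is injective on torsion. -/
theorem double_sub_eq_zero [FundamentalIdentity K F F'] {C m : ℕ}
    (hinj : ∀ D : Divisor K F, (m • D).IsPrincipal → (Divisor.pullback F' D).IsPrincipal →
      D.IsPrincipal)
    {x : Pic0 K F} (hx : m • x = 0)
    (h : C • (s' • (s' • Pic0.pullbackHom F' x - Pic0.pullbackHom F' x)
      - (s' • Pic0.pullbackHom F' x - Pic0.pullbackHom F' x)) = 0) :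
    C • (s • (s • x - x) - (s • x - x)) = 0 := by
  have hx' : ∀ z : Pic0 K F, m • z = 0 → m • (s • z - z) = 0 := fun z hz => by
    have hsz : m • (s • z) = s • (m • z) :=
      (map_nsmul (DistribSMul.toAddMonoidHom (Pic0 K F) s) _ z).symm
    rw [nsmul_sub, hsz, hz, sub_zero]
    exact smul_zero (A := Pic0 K F) s
  have h1 : m • (C • (s • (s • x - x) - (s • x - x))) = 0 := by
    rw [smul_smul, mul_comm, mul_smul, hx' _ (hx' x hx), smul_zero]
  have h2 : Pic0.pullbackHom F' (C • (s • (s • x - x) - (s • x - x))) = 0 := by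
    rw [map_nsmul, map_sub, pullbackHom_smul hs, map_sub, pullbackHom_smul hs]
    exact h
  revert h1 h2
  generalize C • (s • (s • x - x) - (s • x - x)) = y
  obtain ⟨D, rfl⟩ := Pic0.mk_surjective y
  intro h1 h2
  rw [Pic0.pullbackHom_mk] at h2
  rw [Pic0.mk, ← QuotientAddGroup.mk_nsmul, QuotientAddGroup.eq_zero_iff,
    AddSubgroup.mem_addSubgroupOf, AddSubgroupClass.coe_nsmul] at h1
  rw [Pic0.mk, QuotientAddGroup.eq_zero_iff, AddSubgroup.mem_addSubgroupOf] at h2 ⊢
  exact hinj _ h1 h2

end General

local notation "Qbar" => AlgebraicClosure ℚ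

/-- Unipotence descends along a step of index `2` or `3`. -/
theorem jacobianUnipotent_of_mul {N h p q : ℕ} [NeZero N] [NeZero h] [NeZero (N * h)]
    (hh : h = 2 ∨ h = 3) (hhN : ¬ h ∣ N) (hp : p.Prime) (hp2 : h = 3 → p ≠ 2)
    (hJ : JacobianUnipotent (N * h) p q) : JacobianUnipotent N p q := by
  have := Hecke.isFunctionField_of_data Qbar N
    fun d _ => ⟨ModularFunctionField.modularPolynomialData d⟩
  have := Hecke.isFunctionField_of_data Qbar (N * h)
    fun d _ => ⟨ModularFunctionField.modularPolynomialData d⟩
  set ι := heckeAlphaBar Qbar N h with hι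
  have hint := Hecke.isIntegral_of_isFunctionField ι
  let := algebraAlong ι
  have := isScalarTower_along ι
  have := isIntegral_along ι hint
  have : FundamentalIdentity Qbar (modularFunctionFieldBar N)
      (modularFunctionFieldBar (N * h)) := Hecke.fundamentalIdentityAlong ι hint
  obtain ⟨C, hC, hJ⟩ := hJ
  refine ⟨C, hC, fun k P hP σ hσ x hx => ?_⟩
  have hstep : GoodReductionS18.TameStep N (N * h) (p ^ k) :=
    Or.inr ⟨h, hh, hhN, mul_comm N h, fun e h2 =>
      hp2 e ((Nat.prime_dvd_prime_iff_eq Nat.prime_two hp).mp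
        (Nat.prime_two.dvd_of_dvd_pow h2)).symm⟩
  have hcomm : ∀ f : modularFunctionFieldBar N,
      arithmeticGalois (modularFunctionFieldFull (N * h)) σ • ι f
        = ι (arithmeticGalois (modularFunctionFieldFull N) σ • f) := fun f => Subtype.ext (by
      rw [coe_arithmeticGalois_smul, hι, coe_heckeAlphaBar, coe_heckeAlphaBar,
        coe_arithmeticGalois_smul])
  have hinj : ∀ D : Divisor Qbar (modularFunctionFieldBar N), (p ^ k • D).IsPrincipal →
      (Divisor.pullback (modularFunctionFieldBar (N * h)) D).IsPrincipal → D.IsPrincipal :=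
    fun D => GoodReductionS18.isPrincipal_of_pullbackAlong_tame Qbar hstep
      (pow_ne_zero _ hp.ne_zero) ι hint (fun f => coe_heckeAlphaBar N h f) D
  refine double_sub_eq_zero (K := Qbar) (F := modularFunctionFieldBar N)
    (F' := modularFunctionFieldBar (N * h)) (s := arithmeticGalois (modularFunctionFieldFull N) σ)
    (s' := arithmeticGalois (modularFunctionFieldFull (N * h)) σ) hcomm hinj hx ?_
  refine hJ k P hP σ hσ _ ?_
  rw [← map_nsmul, hx, map_zero]

end Fermat.Agent.UnipotentInertia
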