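import Fermat.Agent.UnipotentInertia.Translate
import Fermat.Agent.KummerDivisor.Flat
import Fermat.Agent.KummerES.ModulesFinal

/-!
# Kummer modules with divisor maps at every level

Combined with unipotence on the Jacobians at split levels (`UnipotentAtSplitLevels`), they give
unipotent inertia on the representation of a Hecke-Galois datum.
-/

set_option autoImplicit false

noncomputable section

open CongruenceSubgroup
open scoped MatrixGroups

namespace Fermat.Agent.UnipotentInertia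

/-- Kummer modules with divisor maps to the Jacobian. -/
theorem exists_modules_divisorMaps (N p : ℕ) [NeZero N] (hp : p.Prime) :
    ∃ G : KummerES.Gamma0Modules N p, KummerDivisor.HasDivisorMaps G (6 * N) := by
  have : NeZero p := ⟨hp.ne_zero⟩
  let C : KummerES.ConjLevel (Gamma0 N) N (6 * N) :=
    KummerES.conjLevelTwo (dvd_mul_of_dvd_left (by norm_num) N) (KummerES.isDiagStable_gamma0 N)
      (dvd_mul_left N 6)
  let G : KummerES.Gamma0Modules N p :=
    KummerES.gamma0ModulesOfLevel hp C (KummerES.rigidityProp _)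
  exact ⟨G, KummerDivisor.hasDivisorMaps G
    (KummerDivisor.hasAlgebraicRoots C G fun _ _ => rfl)⟩

variable {𝒪 : Type} [CommRing 𝒪] [IsDomain 𝒪] [IsDiscreteValuationRing 𝒪]
  [IsAdicComplete (IsLocalRing.maximalIdeal 𝒪) 𝒪]
  {p N : ℕ} [NeZero N] {S : Finset ℕ}
  {θ : CuspForm.heckeAlgebra N 2 (↑S : Set ℕ) →+* IsLocalRing.ResidueField 𝒪}
  {T : Type} [CommRing T] [IsLocalRing T] [IsNoetherianRing T]
  [IsAdicComplete (IsLocalRing.maximalIdeal T) T] [Algebra 𝒪 T] [IsLocalHom (algebraMap 𝒪 T)]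
  [Module.Finite 𝒪 T] [Module.Free 𝒪 T]

/-- Unipotent inertia at primes exactly dividing the level. -/
theorem isUnipotentOnInertiaAt_of_core (hcore : UnipotentAtSplitLevels)
    (hp : p.Prime) (hp𝒪 : (p : 𝒪) ∈ IsLocalRing.maximalIdeal 𝒪)
    (hNS : ∀ q : ℕ, q.Prime → q ∣ N → q ∈ S)
    (H : CuspForm.HeckeGaloisRepDatum N (↑S : Set ℕ) 𝒪 θ T)
    {q : ℕ} (hq : q.Prime) (hqp : q ≠ p) (hqN : q ∣ N) (hq2 : ¬ q ^ 2 ∣ N) :
    H.ρ.IsUnipotentOnInertiaAt q := by
  obtain ⟨G, hG⟩ := exists_modules_divisorMaps N p hp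
  exact isUnipotentOnInertiaAt_of_split hcore hp hp𝒪 hNS G
    (Nat.mul_ne_zero (by norm_num) (NeZero.ne N)) hG H hq hqp hqN hq2

end Fermat.Agent.UnipotentInertia
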