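import Fermat.Prelude.Def_CuspForm_HeckeGaloisRepDatum
import Fermat.Prelude.Def_GaloisRep_LocalConditions
import Fermat.Agent.ConductorLevel.Compare

/-!
# Unipotent inertia for Hecke-Galois data

If the Hecke algebra has Galois modules on which inertia at `q` satisfies `(σ - 1) ^ 2 = 0` and
on which Frobenius elements satisfy the Eichler-Shimura relation, then inertia at `q` acts
unipotently on the representation of any Hecke-Galois datum.
-/

namespace Fermat.Agent.UnipotentInertia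

open Polynomial Fermat.Agent.HeckeDatum

local notation "Qbar" => AlgebraicClosure ℚ

/-- For every `j`, a Galois module over the Hecke algebra, killed by a power of `p`, on which
inertia at `q` satisfies `(σ - 1) ^ 2 = 0`, satisfying the Eichler-Shimura relation, whose
annihilator is contained in `p ^ j`. -/
def HasUnipotentHeckeModules (N : ℕ) [NeZero N] (S : Set ℕ) (p q : ℕ) : Prop :=
  ∀ j : ℕ, ∃ (M : Type) (_ : AddCommGroup M) (_ : Module (CuspForm.heckeAlgebra N 2 S) M)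
    (r : (Qbar ≃ₐ[ℚ] Qbar) →* Module.End (CuspForm.heckeAlgebra N 2 S) M)
    (k : ℕ) (S₀ : Finset ℕ),
    (∀ m : M, p ^ k • m = 0) ∧
    GaloisFactorsThroughFiniteLevel r ∧
    (∀ P : ValuationSubring Qbar, P.LiesOverPrime q → ∀ σ ∈ P.inertiaSubgroupIn ℚ,
      (r σ - 1) ^ 2 = 0) ∧
    (∀ (ℓ : ℕ) (hℓ : ℓ.Prime) (hℓN : ¬ ℓ ∣ N) (hℓS : ℓ ∉ S), ℓ ∉ S₀ →
      ∀ A : ValuationSubring Qbar, A.LiesOverPrime ℓ →
        ∀ φ : Qbar ≃ₐ[ℚ] Qbar, A.IsFrobeniusAt φ ℓ → ∀ m : M,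
          r φ (r φ m) - (CuspForm.heckeAlgebra.T hℓ hℓN hℓS : CuspForm.heckeAlgebra N 2 S) • r φ m
            + ℓ • m = 0) ∧
    (∀ t : CuspForm.heckeAlgebra N 2 S, (∀ m : M, t • m = 0) →
      ∃ u : CuspForm.heckeAlgebra N 2 S,
        t = (p : CuspForm.heckeAlgebra N 2 S) ^ j * u)

section comparison

variable {R : Type*} [CommRing R] {M : Type*} [AddCommGroup M] [Module R M]

/-- Comparing `f ^ 2 - c f + 1 = 0` with `(f - 1) ^ 2 = 0` gives `c = 2` on the module. -/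
lemma sub_two_smul_eq_zero {f : Module.End R M} (hf : Function.Surjective f) {c e : R}
    (h1 : f ^ 2 - c • f + e • (1 : Module.End R M) = 0) (h2 : (f - 1) ^ 2 = 0)
    (he : ∀ m : M, e • m = m) (m : M) : (c - 2) • m = 0 := by
  obtain ⟨m, rfl⟩ := hf m
  have e1 := LinearMap.congr_fun h1 m
  have e2 := LinearMap.congr_fun h2 m
  simp only [pow_two, LinearMap.add_apply, LinearMap.sub_apply, LinearMap.smul_apply,
    Module.End.mul_apply, Module.End.one_apply, LinearMap.zero_apply, map_sub, he] at e1 e2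
  rw [sub_smul, two_smul]
  calc c • f m - (f m + f m)
      = (f (f m) - f m - (f m - m)) - (f (f m) - c • f m + m) := by abel
    _ = 0 := by rw [e1, e2, sub_zero]

end comparison

variable {p : ℕ} {N : ℕ} [NeZero N] {S : Finset ℕ}
  {𝒪 : Type} [CommRing 𝒪] [IsDomain 𝒪] [IsDiscreteValuationRing 𝒪]
  [IsAdicComplete (IsLocalRing.maximalIdeal 𝒪) 𝒪]
  {θ : CuspForm.heckeAlgebra N 2 (↑S : Set ℕ) →+* IsLocalRing.ResidueField 𝒪}
  {T : Type} [CommRing T] [IsLocalRing T] [IsNoetherianRing T]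
  [IsAdicComplete (IsLocalRing.maximalIdeal T) T] [Algebra 𝒪 T] [IsLocalHom (algebraMap 𝒪 T)]
  [Module.Finite 𝒪 T] [Module.Free 𝒪 T]

/-- Trace `2` and determinant `1` on inertia at `q`. -/
theorem trace_eq_two_and_det_eq_one (hdense : FrobeniusPowDense)
    (hp : p.Prime) (hp𝒪 : (p : 𝒪) ∈ IsLocalRing.maximalIdeal 𝒪)
    (hNS : ∀ q : ℕ, q.Prime → q ∣ N → q ∈ S)
    (H : CuspForm.HeckeGaloisRepDatum N (↑S : Set ℕ) 𝒪 θ T)
    {q : ℕ} (hq : q.Prime) (hqp : q ≠ p)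
    (hM : HasUnipotentHeckeModules N (↑S : Set ℕ) p q)
    {P : ValuationSubring Qbar} (hP : P.LiesOverPrime q)
    {σ : Qbar ≃ₐ[ℚ] Qbar} (hσ : σ ∈ P.inertiaSubgroupIn ℚ) :
    LinearMap.trace T H.ρ.V (H.ρ.ρ σ) = 2 ∧ LinearMap.det (H.ρ.ρ σ) = 1 := by
  have hpT : (p : T) ∈ IsLocalRing.maximalIdeal T := by
    rw [← map_natCast (algebraMap 𝒪 T) p]
    exact map_nonunit (algebraMap 𝒪 T) _ hp𝒪
  have main : ∀ n : ℕ,
      LinearMap.trace T H.ρ.V (H.ρ.ρ σ) - 2 ∈ IsLocalRing.maximalIdeal T ^ n ∧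
        LinearMap.det (H.ρ.ρ σ) - 1 ∈ IsLocalRing.maximalIdeal T ^ n := by
    intro n
    obtain ⟨L₁, hL₁, hcont⟩ := H.ρ.isAdicContinuous n
    obtain ⟨M, _, _, r, k, S₀, hpk, ⟨L₂, hL₂, hfac⟩, hinert, hES, hann⟩ := hM n
    set K : ℕ := max k n with hK
    have hpK : p ^ K ≠ 0 := pow_ne_zero _ hp.ne_zero
    obtain ⟨ζ, hζ⟩ : ∃ ζ : Qbar, IsPrimitiveRoot ζ (p ^ K) := by
      have : NeZero (p ^ K) := ⟨hpK⟩
      exact HasEnoughRootsOfUnity.exists_primitiveRoot Qbar (p ^ K)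
    have := hL₁
    have := hL₂
    have : FiniteDimensional ℚ (IntermediateField.adjoin ℚ ({ζ} : Set Qbar)) :=
      IntermediateField.adjoin.finiteDimensional
        (IsPrimitiveRoot.isIntegral hζ (pow_pos hp.pos K) |>.tower_top)
    set L : IntermediateField ℚ Qbar :=
      L₁ ⊔ L₂ ⊔ IntermediateField.adjoin ℚ {ζ} with hLdef
    have hLfin : FiniteDimensional ℚ L := inferInstance
    have hL1le : L₁ ≤ L := le_sup_of_le_left le_sup_left
    have hL2le : L₂ ≤ L := le_sup_of_le_left le_sup_right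
    have hζL : ζ ∈ L :=
      le_sup_right (a := L₁ ⊔ L₂) (IntermediateField.mem_adjoin_simple_self ℚ ζ)
    obtain ⟨ℓ, hℓ, hℓnot, A, hA, φ, hφ, a, ha⟩ := hdense L hLfin σ (S₀ ∪ S ∪ {p})
    simp only [Finset.mem_union, Finset.mem_singleton, not_or] at hℓnot
    obtain ⟨⟨hℓS₀, hℓS⟩, hℓp⟩ := hℓnot
    have hℓN : ¬ ℓ ∣ N := fun hd => hℓS (hNS ℓ hℓ hd)
    have hℓS' : ℓ ∉ (↑S : Set ℕ) := by simpa using hℓS
    set Tl : CuspForm.heckeAlgebra N 2 (↑S : Set ℕ) := CuspForm.heckeAlgebra.T hℓ hℓN hℓS'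
      with hTl
    set c := powTrace Tl (ℓ : CuspForm.heckeAlgebra N 2 (↑S : Set ℕ)) a with hc
    have hφchar := H.charpoly_frob ℓ hℓ hℓN hℓS' A hA φ hφ
    have hcong : ∀ v : H.ρ.V, H.ρ.ρ σ v - H.ρ.ρ (φ ^ a) v ∈
        (IsLocalRing.maximalIdeal T ^ n) • (⊤ : Submodule T H.ρ.V) :=
      fun v => apply_sub_apply_mem H.ρ hcont (fun x hx => ha x (hL1le hx)) v
    have htr : LinearMap.trace T H.ρ.V (H.ρ.ρ σ) - H.π c ∈ IsLocalRing.maximalIdeal T ^ n := by
      rw [hc, map_powTrace, map_natCast,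
        ← trace_pow_of_charpoly H.ρ.finrank_eq hφchar a, ← map_pow, ← map_sub]
      exact trace_mem_of_forall_mem_smul_top _ fun v => by
        rw [LinearMap.sub_apply]; exact hcong v
    have hdet : LinearMap.det (H.ρ.ρ σ) - ((ℓ ^ a : ℕ) : T) ∈
        IsLocalRing.maximalIdeal T ^ n := by
      have := (ConductorLevel.trace_det_congr _ hcong).2
      rwa [map_pow H.ρ.ρ, map_pow LinearMap.det, ConductorLevel.det_eq_of_charpoly H.ρ.finrank_eq hφchar,
        ← Nat.cast_pow] at this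
    -- `σ` fixes `ζ`, so `ℓ ^ a ≡ 1` modulo `p ^ K`
    have hσζ : σ ζ = ζ :=
      inertia_apply_eq P hP (((Nat.coprime_primes hp hq).mpr (Ne.symm hqp)).pow_left K) hpK hσ
        hζ.pow_eq_one
    have hmod : ℓ ^ a % p ^ K = 1 % p ^ K := by
      have h1 : ζ ^ (ℓ ^ a) = ζ ^ 1 := by
        rw [← frobenius_pow_apply_eq A hA
          (((Nat.coprime_primes hp hℓ).mpr (Ne.symm hℓp)).pow_left K) hpK hφ a hζ.pow_eq_one,
          ← ha ζ hζL, hσζ, pow_one]
      rw [hζ.eq_orderOf]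
      exact (hζ.isOfFinOrder hpK).pow_eq_pow_iff_modEq.mp h1
    have hdvd : ((p ^ K : ℕ) : ℤ) ∣ ((ℓ ^ a : ℕ) : ℤ) - 1 := by
      have h1 : (ℓ ^ a) ≡ 1 [MOD p ^ K] := hmod
      simpa using Nat.modEq_iff_dvd.mp h1.symm
    obtain ⟨w, hw⟩ := hdvd
    refine ⟨?_, ?_⟩
    · have hℓM : ∀ m : M, (ℓ ^ a) • m = m := by
        intro m
        have hK0 : ((p ^ K : ℕ) : ℤ) • m = 0 := by
          have hkK : K = (K - k) + k := (Nat.sub_add_cancel (le_max_left k n)).symm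
          rw [natCast_zsmul, hkK, pow_add, mul_smul, hpk, smul_zero]
        rw [← natCast_zsmul, show ((ℓ ^ a : ℕ) : ℤ) = w * ((p ^ K : ℕ) : ℤ) + 1 by linarith,
          add_smul, mul_smul, hK0, smul_zero, zero_add, one_smul]
      have hx : (r φ) ^ 2 - Tl • r φ
          + (ℓ : CuspForm.heckeAlgebra N 2 (↑S : Set ℕ)) • (1 : Module.End _ M) = 0 := by
        refine LinearMap.ext fun m => ?_
        rw [pow_two]
        simpa [Nat.cast_smul_eq_nsmul] using hES ℓ hℓ hℓN hℓS' hℓS₀ A hA φ hφ m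
      have hrσ : r σ = (r φ) ^ a := by
        have h1 : r ((φ ^ a)⁻¹ * σ) = 1 := hfac _ fun x hx => by
          rw [AlgEquiv.mul_apply, ha x (hL2le hx)]; exact AlgEquiv.symm_apply_apply (φ ^ a) x
        rw [← map_pow, ← mul_one (r (φ ^ a)), ← h1, ← map_mul, mul_inv_cancel_left]
      have hsur : Function.Surjective (r σ) := fun m => ⟨r σ⁻¹ m, by
        rw [← Module.End.mul_apply, ← map_mul, mul_inv_cancel, map_one, Module.End.one_apply]⟩
      have hℓR : ∀ m : M, ((ℓ : CuspForm.heckeAlgebra N 2 (↑S : Set ℕ)) ^ a) • m = m := fun m => by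
        rw [← Nat.cast_pow, Nat.cast_smul_eq_nsmul, hℓM]
      have hann' : ∀ m : M, (c - 2) • m = 0 :=
        sub_two_smul_eq_zero hsur (by rw [hrσ]; exact pow_quadratic_algebra hx a)
          (hinert P hP σ hσ) hℓR
      obtain ⟨u, hu⟩ := hann _ hann'
      have hcc : H.π c - 2 ∈ IsLocalRing.maximalIdeal T ^ n := by
        rw [← map_ofNat H.π 2, ← map_sub, hu, map_mul, map_pow, map_natCast]
        exact Ideal.mul_mem_right _ _ (Ideal.pow_mem_pow hpT n)
      have := Ideal.add_mem _ htr hcc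
      rwa [sub_add_sub_cancel] at this
    · have h1 : ((ℓ ^ a : ℕ) : T) - 1 ∈ IsLocalRing.maximalIdeal T ^ n := by
        have h2 : (((ℓ ^ a : ℕ) : ℤ) : T) - ((1 : ℤ) : T) = (p : T) ^ K * (w : T) := by
          rw [← Int.cast_sub, hw]; push_cast; ring
        simp only [Int.cast_natCast, Int.cast_one] at h2
        rw [h2]
        exact Ideal.mul_mem_right _ _
          (Ideal.pow_le_pow_right (le_max_right k n) (Ideal.pow_mem_pow hpT K))
      have := Ideal.add_mem _ hdet h1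
      rwa [sub_add_sub_cancel] at this
  constructor
  · refine IsHausdorff.eq_iff_smodEq (I := IsLocalRing.maximalIdeal T) |>.mpr fun n => ?_
    rw [SModEq.sub_mem, smul_eq_mul, Ideal.mul_top]
    exact (main n).1
  · refine IsHausdorff.eq_iff_smodEq (I := IsLocalRing.maximalIdeal T) |>.mpr fun n => ?_
    rw [SModEq.sub_mem, smul_eq_mul, Ideal.mul_top]
    exact (main n).2

/-- Unipotent inertia at `q` from unipotent Hecke modules. -/
theorem isUnipotentOnInertiaAt_of_heckeModules (hdense : FrobeniusPowDense)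
    (hp : p.Prime) (hp𝒪 : (p : 𝒪) ∈ IsLocalRing.maximalIdeal 𝒪)
    (hNS : ∀ q : ℕ, q.Prime → q ∣ N → q ∈ S)
    (H : CuspForm.HeckeGaloisRepDatum N (↑S : Set ℕ) 𝒪 θ T)
    {q : ℕ} (hq : q.Prime) (hqp : q ≠ p)
    (hM : HasUnipotentHeckeModules N (↑S : Set ℕ) p q) :
    H.ρ.IsUnipotentOnInertiaAt q := by
  intro P hP σ hσ
  obtain ⟨h1, h2⟩ := trace_eq_two_and_det_eq_one hdense hp hp𝒪 hNS H hq hqp hM hP hσ
  rw [ConductorLevel.charpoly_eq_of_finrank_two H.ρ.finrank_eq, h1, h2, map_one, C_ofNat]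
  ring

end Fermat.Agent.UnipotentInertia
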